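import Fermat.Agent.HeckeBS.Main
import Mathlib.NumberTheory.NumberField.CMField

/-!
# The relative class number of a Galois CM field

`h R` is at least `c |d|^(1/2 - ε)` for `F`, at most `C |d⁺|^(1/2 + ε) ≤ C |d|^(1/4 + ε/2)` for
`F⁺`, and the regulators differ by a factor at most `2^n`: so a bound on `h / h⁺` bounds `|d|`.
-/

set_option autoImplicit false
set_option linter.style.haveILetI false

noncomputable section

universe u

open NumberField Module
open FA.HeckeBS (hR exists_hR_lower_galois exists_hR_upper one_le_absR)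
open scoped Real Classical

namespace FA.CMFinite

theorem natAbs_discr_plus_sq_le (F : Type u) [Field F] [NumberField F] [IsCMField F] :
    (discr (maximalRealSubfield F)).natAbs ^ 2 ≤ (discr F).natAbs := by
  have h := natAbs_discr_eq_absNorm_differentIdeal_mul_natAbs_discr_pow (maximalRealSubfield F)
    (𝓞 (maximalRealSubfield F)) F (𝓞 F)
  rw [Algebra.IsQuadraticExtension.finrank_eq_two (maximalRealSubfield F) F] at h
  exact Nat.le_of_dvd (Int.natAbs_pos.mpr (discr_ne_zero F)) ⟨_, h.trans (mul_comm _ _)⟩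

theorem finrank_eq_two_mul (F : Type u) [Field F] [NumberField F] [IsCMField F] :
    finrank ℚ F = 2 * finrank ℚ (maximalRealSubfield F) := by
  rw [← Module.finrank_mul_finrank ℚ (maximalRealSubfield F) F,
    Algebra.IsQuadraticExtension.finrank_eq_two (maximalRealSubfield F) F, mul_comm]

theorem hR_le_plus (F : Type u) [Field F] [NumberField F] [IsCMField F] {B : ℕ}
    (hB : classNumber F ≤ B * classNumber (maximalRealSubfield F)) :
    hR F ≤ B * 2 ^ finrank ℚ F * hR (maximalRealSubfield F) := by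
  have hreg := IsCMField.regulator_div_regulator_eq_two_pow_mul_indexRealUnits_inv F
  rw [div_eq_iff (Units.regulator_ne_zero _)] at hreg
  have hQ : (IsCMField.indexRealUnits F : ℝ)⁻¹ ≤ 1 := by
    rcases IsCMField.indexRealUnits_eq_one_or_two F with e | e <;> rw [e] <;> norm_num
  have hrank : Units.rank F ≤ finrank ℚ F := by
    have := InfinitePlace.card_add_two_mul_card_eq_rank F
    rw [Units.rank, InfinitePlace.card_eq_nrRealPlaces_add_nrComplexPlaces]
    omega
  have hR0 := Units.regulator_pos (maximalRealSubfield F)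
  have h1 : Units.regulator F ≤ 2 ^ finrank ℚ F * Units.regulator (maximalRealSubfield F) := by
    rw [hreg]
    refine mul_le_mul_of_nonneg_right ?_ hR0.le
    exact (mul_le_of_le_one_right (by positivity) hQ).trans (pow_le_pow_right₀ one_le_two hrank)
  have hB' : (classNumber F : ℝ) ≤ B * classNumber (maximalRealSubfield F) := by exact_mod_cast hB
  refine (mul_le_mul hB' h1 (Units.regulator_pos F).le (by positivity)).trans (le_of_eq ?_)
  rw [hR]; ring

/-- **The discriminant is bounded.** -/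
theorem exists_discr_bound (n B : ℕ) :
    ∃ D : ℕ, ∀ (F : Type u) [Field F] [NumberField F] [IsGalois ℚ F] [IsCMField F],
      finrank ℚ F = n → classNumber F ≤ B * classNumber (maximalRealSubfield F) →
      (discr F).natAbs ≤ D := by
  obtain ⟨c, hc, hlo⟩ := exists_hR_lower_galois.{u} n (show (0 : ℝ) < 1 / 12 by norm_num)
  obtain ⟨C, hC, hup⟩ := exists_hR_upper.{u} (n / 2) (show (0 : ℝ) < 1 / 12 by norm_num)
  obtain ⟨D, hD⟩ := exists_nat_ge (((B : ℝ) * 2 ^ n * C / c) ^ (8 : ℝ))
  refine ⟨D, fun F _ _ _ _ hn hB => Nat.cast_le.1 (le_trans ?_ hD)⟩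
  set d : ℝ := ((discr F).natAbs : ℝ)
  set Fp := maximalRealSubfield F
  have hcast : ∀ z : ℤ, |(z : ℝ)| = (z.natAbs : ℝ) := fun z => by
    rw [← Int.cast_abs, ← Int.natCast_natAbs, Int.cast_natCast]
  have hd1 : 1 ≤ d := Nat.one_le_cast.2 (Int.natAbs_pos.2 (discr_ne_zero F))
  have h1 := hlo F hn
  have h2 := hup Fp (by rw [← hn, finrank_eq_two_mul F, Nat.mul_div_cancel_left _ two_pos])
  rw [hcast] at h1 h2
  have h3 : (((discr Fp).natAbs : ℕ) : ℝ) ^ (1 / 2 + 1 / 12 : ℝ) ≤ d ^ (7 / 24 : ℝ) := by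
    have h4 : (((discr Fp).natAbs : ℕ) : ℝ) ^ 2 ≤ d := by
      show _ ≤ (((discr F).natAbs : ℕ) : ℝ)
      exact_mod_cast natAbs_discr_plus_sq_le F
    refine le_trans (le_of_eq ?_) (Real.rpow_le_rpow (sq_nonneg _) h4 (by norm_num))
    rw [← Real.rpow_natCast _ 2, ← Real.rpow_mul (Nat.cast_nonneg _)]
    norm_num
  have hchain : c * d ^ (1 / 2 - 1 / 12 : ℝ) ≤ B * 2 ^ n * C * d ^ (7 / 24 : ℝ) := by
    have h5 := hR_le_plus F hB
    rw [hn] at h5
    refine h1.trans (h5.trans ((mul_le_mul_of_nonneg_left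
      (h2.trans (mul_le_mul_of_nonneg_left h3 hC.le)) (by positivity)).trans (le_of_eq (by ring))))
  have hd0 : 0 < d := zero_lt_one.trans_le hd1
  have h6 : d ^ (1 / 8 : ℝ) ≤ B * 2 ^ n * C / c := by
    rw [le_div_iff₀ hc]
    refine le_of_mul_le_mul_right ?_ (Real.rpow_pos_of_pos hd0 (7 / 24 : ℝ))
    refine le_trans (le_of_eq ?_) hchain
    rw [mul_right_comm, ← Real.rpow_add hd0, mul_comm]
    norm_num
  calc d = (d ^ (1 / 8 : ℝ)) ^ (8 : ℝ) := by
        rw [← Real.rpow_mul hd0.le]; norm_num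
    _ ≤ _ := Real.rpow_le_rpow (Real.rpow_nonneg hd0.le _) h6 (by norm_num)

/-- The same in all degrees up to `n`. -/
theorem exists_discr_bound_le (n B : ℕ) :
    ∃ D : ℕ, ∀ (F : Type u) [Field F] [NumberField F] [IsGalois ℚ F] [IsCMField F],
      finrank ℚ F ≤ n → classNumber F ≤ B * classNumber (maximalRealSubfield F) →
      (discr F).natAbs ≤ D := by
  choose D hD using fun m => exists_discr_bound.{u} m B
  refine ⟨(Finset.range (n + 1)).sup D, fun F _ _ _ _ hn hB =>
    (hD _ F rfl hB).trans (Finset.le_sup (Finset.mem_range.2 (by omega)))⟩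

end FA.CMFinite
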